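import Fermat.Agent.CAR.XW.Uq
import Fermat.Agent.GAL.KLC.XSeries

/-!
# CAR / XW / Main : `w_q X · X = q^{12 e₀}` for the modular unit `X = TH1.XF M q`
-/

set_option autoImplicit false

open ModularCurve

noncomputable section

namespace Fermat.Agent.CAR.XW

open Fermat.Agent.S24 Fermat.Agent.S28 Fermat.Agent.GR.HeckeField Fermat.Agent.TOR.GB
  Fermat.Agent.GAL Fermat.Agent.GAL.KLC Fermat.Agent.CAR.TH1

theorem coeffMap_uU_eq (K : Type*) [CommRing K] (d : ℕ) [NeZero d] :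
    coeffMap (Int.castRingHom K) ((uU d : (LaurentSeries ℤ)ˣ) : LaurentSeries ℤ)
      = qExpand K d (S28.DqC K) * S28.DqInvC K := by
  have h1 : ((uU d : (LaurentSeries ℤ)ˣ) : LaurentSeries ℤ)
      = S28.qE ℤ d (S28.DqC ℤ) * S28.DqInvC ℤ := rfl
  rw [h1, map_mul, S28.coeffMap_qE, S28.coeffMap_DqC, S28.coeffMap_DqInvC, S28.qE_eq]

variable {M q : ℕ} [NeZero M] [NeZero q]

theorem uF_ne_zero (N d : ℕ) [NeZero N] (hd : d ∣ N) : uF N d hd ≠ 0 := by
  intro h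
  have := congrArg Subtype.val h
  exact (uR Qb (uU d)).ne_zero this

theorem uF_eq_alp (d : ℕ) (hd : d ∣ M) :
    uF (M * q) d (hd.mul_right q) = alp M q (uF M d hd) := by
  apply Subtype.ext
  rw [coe_heckeAlphaBar]
  rfl

theorem uF_mul_eq (d : ℕ) (hd : d ∣ M) :
    uF (M * q) (q * d) (by rw [mul_comm M q]; exact mul_dvd_mul_left q hd)
      = bet M q (uF M d hd) * uF (M * q) q (Dvd.intro_left M rfl) := by
  have : NeZero d := ⟨fun h => NeZero.ne M (Nat.eq_zero_of_zero_dvd (h ▸ hd))⟩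
  apply Subtype.ext
  have e2 : ((bet M q (uF M d hd) * uF (M * q) q (Dvd.intro_left M rfl) : FN (M * q))
      : LaurentSeries Qb) = ((bet M q (uF M d hd) : FN (M * q)) : LaurentSeries Qb)
        * ((uF (M * q) q (Dvd.intro_left M rfl) : FN (M * q)) : LaurentSeries Qb) := rfl
  rw [e2, coe_heckeBetaBar, coe_uF, coe_uF, coe_uF, coeffMap_uU_eq, coeffMap_uU_eq, coeffMap_uU_eq,
    map_mul, qExpand_qExpand]
  have h1 : qExpand Qb q (S28.DqInvC Qb) * qExpand Qb q (S28.DqC Qb) = 1 := by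
    rw [← map_mul, mul_comm, S28.DqC_mul_DqInvC, map_one]
  calc qExpand Qb (q * d) (S28.DqC Qb) * S28.DqInvC Qb
      = qExpand Qb (q * d) (S28.DqC Qb) * (qExpand Qb q (S28.DqInvC Qb) * qExpand Qb q (S28.DqC Qb))
          * S28.DqInvC Qb := by rw [h1, mul_one]
    _ = _ := by ring

theorem dF_eq (N d₁ d₂ : ℕ) [NeZero N] (h₁ : d₁ ∣ N) (h₂ : d₂ ∣ N) :
    dF N d₁ d₂ h₁ h₂ = uF N d₂ h₂ * (uF N d₁ h₁)⁻¹ := by
  apply Subtype.ext
  show ((uR Qb (dU d₁ d₂) : (LaurentSeries Qb)ˣ) : LaurentSeries Qb) = _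
  unfold dU
  rw [uR_mul, uR_inv, Units.val_mul, Units.val_inv_eq_inv_val]
  rfl

/-- **`w_q (Δ(Q^{qd})/Δ(Q^d)) · Δ(Q^{qd})/Δ(Q^d) = q⁻¹²`**, `d ∣ M`. -/
theorem wq_dF (hq : q.Prime) (hqM : ¬ q ∣ M) (d : ℕ) (hd : d ∣ M) :
    wq M q (dF (M * q) d (q * d) (hd.mul_right q)
        (by rw [mul_comm M q]; exact mul_dvd_mul_left q hd))
      * dF (M * q) d (q * d) (hd.mul_right q) (by rw [mul_comm M q]; exact mul_dvd_mul_left q hd)
      = algebraMap Qb (FN (M * q)) (((q : Qb) ^ 12)⁻¹) := by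
  rw [← wq_uF hq hqM, dF_eq, uF_mul_eq d hd, uF_eq_alp d hd, map_mul, map_mul, map_inv₀,
    wq_alp hq hqM, wq_bet hq hqM]
  have h1 : alp M q (uF M d hd) ≠ 0 := by
    rw [Ne, map_eq_zero]; exact uF_ne_zero M d hd
  have h2 : bet M q (uF M d hd) ≠ 0 := by
    rw [Ne, map_eq_zero]; exact uF_ne_zero M d hd
  field_simp

open Classical in
/-- the factors of `X` (junk `1` if `d ∤ M`). -/
def gF (M q : ℕ) [NeZero M] [NeZero q] (d : ℕ) : FN (M * q) :=
  if hd : d ∣ M then dF (M * q) d (q * d) (hd.mul_right q)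
    (by rw [mul_comm M q]; exact mul_dvd_mul_left q hd) else 1

theorem coe_gF (d : ℕ) (hd : d ∣ M) :
    ((gF M q d : FN (M * q)) : LaurentSeries Qb)
      = ((uR Qb (dU d (q * d)) : (LaurentSeries Qb)ˣ) : LaurentSeries Qb) := by
  rw [gF, dif_pos hd]
  rfl

theorem XF_eq_prod :
    XF M q = ∏ T ∈ M.primeFactors.powerset, gF M q (S28.E4.dT M T) ^ S28.E4.expT M T := by
  apply Subtype.ext
  have h1 : XR Qb M q = ((uR Qb (XU M q) : (LaurentSeries Qb)ˣ) : LaurentSeries Qb) := rfl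
  rw [coe_XF, h1]
  unfold XU
  have h2 : ((∏ T ∈ M.primeFactors.powerset, gF M q (S28.E4.dT M T) ^ S28.E4.expT M T
      : FN (M * q)) : LaurentSeries Qb) = ∏ T ∈ M.primeFactors.powerset,
        ((gF M q (S28.E4.dT M T) ^ S28.E4.expT M T : FN (M * q)) : LaurentSeries Qb) :=
    map_prod (algebraMap (FN (M * q)) (LaurentSeries Qb)) _ _
  rw [uR_prod, Units.coe_prod, h2]
  refine Finset.prod_congr rfl fun T hT => ?_
  have h3 : ((gF M q (S28.E4.dT M T) ^ S28.E4.expT M T : FN (M * q)) : LaurentSeries Qb)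
      = ((gF M q (S28.E4.dT M T) : FN (M * q)) : LaurentSeries Qb) ^ S28.E4.expT M T :=
    map_zpow₀ (algebraMap (FN (M * q)) (LaurentSeries Qb)) _ _
  rw [uR_zpow, Units.val_zpow_eq_zpow_val, h3, coe_gF _ (S28.E4.dT_dvd M hT)]

/-- **(X2)** `w_q X · X = q^{12 e₀}`. -/
theorem wq_XF (hq : q.Prime) (hqM : ¬ q ∣ M) :
    wq M q (XF M q) * XF M q = algebraMap Qb (FN (M * q)) ((q : Qb) ^ (12 * e0 M)) := by
  have hq0 : (q : Qb) ≠ 0 := by exact_mod_cast hq.ne_zero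
  rw [XF_eq_prod, map_prod, ← Finset.prod_mul_distrib]
  have h1 : ∀ T ∈ M.primeFactors.powerset,
      wq M q (gF M q (S28.E4.dT M T) ^ S28.E4.expT M T) * gF M q (S28.E4.dT M T) ^ S28.E4.expT M T
        = algebraMap Qb (FN (M * q)) (((q : Qb) ^ 12)⁻¹) ^ S28.E4.expT M T := by
    intro T hT
    have hd := S28.E4.dT_dvd M hT
    rw [map_zpow₀, ← mul_zpow, gF, dif_pos hd, wq_dF hq hqM _ hd]
  have hc : algebraMap Qb (FN (M * q)) (((q : Qb) ^ 12)⁻¹) ≠ 0 := by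
    rw [Ne, map_eq_zero]
    exact inv_ne_zero (pow_ne_zero _ hq0)
  have h3 : ∀ (s : Finset (Finset ℕ)) (f : Finset ℕ → ℤ),
      ∏ T ∈ s, algebraMap Qb (FN (M * q)) (((q : Qb) ^ 12)⁻¹) ^ f T
        = algebraMap Qb (FN (M * q)) (((q : Qb) ^ 12)⁻¹) ^ (∑ T ∈ s, f T) := by
    intro s f
    classical
    induction s using Finset.induction_on with
    | empty => simp
    | insert a s ha ih => rw [Finset.prod_insert ha, Finset.sum_insert ha, ih, zpow_add₀ hc]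
  rw [Finset.prod_congr rfl h1, h3, XSeries_sum_expT, ← map_zpow₀]
  congr 1
  rw [inv_zpow, zpow_neg, inv_inv, zpow_natCast, ← pow_mul]

end Fermat.Agent.CAR.XW
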