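import Fermat.Agent.CAR.XW.Main
import Fermat.Agent.GAL.CT.Q.ThetaJ
import Fermat.Agent.GAL.CT.Theta
import Fermat.Agent.S24.FF.KaehlerField
import Fermat.Agent.S24.Mod.Degree

/-!
# CAR / XW / Theta : `Δ(Q^{d₂})/Δ(Q^{d₁})` in terms of `c = d j_{d₂} / d j_{d₁}`

`D j_{d₂} = c • D j_{d₁}` in `Ω[FN N/ℚ̄]`  and  `dF N d₁ d₂ · R(j_{d₂}) · d₂⁶ = (c d₁)⁶ R(j_{d₁})`,
`R(y) = y⁴ (y - 1728)³`   (from `(θ j)⁶ = R(j) Δ`, `θ = Q d/dQ`).
-/

set_option autoImplicit false

open ModularCurve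

noncomputable section

namespace Fermat.Agent.CAR.XW

open Fermat.Agent.S24 Fermat.Agent.S28 Fermat.Agent.GAL Fermat.Agent.GAL.KLC Fermat.Agent.GAL.CT
  Fermat.Agent.CAR.TH1

theorem coe_smul_FN (N : ℕ) (c : Qb) (x : FN N) :
    ((c • x : FN N) : LaurentSeries Qb) = HahnSeries.C c * (x : LaurentSeries Qb) := by
  rw [Algebra.smul_def]
  have h2 : ((algebraMap Qb (FN N) c * x : FN N) : LaurentSeries Qb)
      = algebraMap Qb (LaurentSeries Qb) c * (x : LaurentSeries Qb) := rfl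
  rw [h2, algebraMap_laurentSeries_eq_single]
  rfl

/-- `θ` restricted to the function field, as a derivation. -/
def thD (N : ℕ) : Derivation Qb (FN N) (LaurentSeries Qb) :=
  Derivation.mk'
    { toFun := fun z => theta (z : LaurentSeries Qb)
      map_add' := fun x y => theta_add _ _
      map_smul' := fun c x => by
        show theta (((c • x : FN N)) : LaurentSeries Qb) = c • theta (x : LaurentSeries Qb)
        rw [coe_smul_FN, theta_C_mul, HahnSeries.C_mul_eq_smul] }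
    (fun a b => by
      show theta ((a : LaurentSeries Qb) * (b : LaurentSeries Qb))
        = a • theta (b : LaurentSeries Qb) + b • theta (a : LaurentSeries Qb)
      rw [theta_mul, Algebra.smul_def, Algebra.smul_def]
      show _ = (a : LaurentSeries Qb) * theta (b : LaurentSeries Qb)
        + (b : LaurentSeries Qb) * theta (a : LaurentSeries Qb)
      ring)

theorem thD_apply (N : ℕ) (z : FN N) : thD N z = theta (z : LaurentSeries Qb) := rfl

instance instIsScalarTowerFNL (N : ℕ) : IsScalarTower Qb (FN N) (LaurentSeries Qb) :=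
  ⟨fun c a m => by
    rw [Algebra.smul_def (c • a) m, Algebra.smul_def a m, ← HahnSeries.C_mul_eq_smul]
    show ((c • a : FN N) : LaurentSeries Qb) * m = HahnSeries.C c * ((a : LaurentSeries Qb) * m)
    rw [coe_smul_FN, mul_assoc]⟩

/-- abstract: `D y = c • D x ⇒ δ y = c • δ x` for every derivation `δ`. -/
theorem deriv_eq_of_D_eq {K F M : Type*} [Field K] [Field F] [Algebra K F] [AddCommGroup M]
    [Module K M] [Module F M] [IsScalarTower K F M] (δ : Derivation K F M) {x y c : F}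
    (h : KaehlerDifferential.D K F y = c • KaehlerDifferential.D K F x) : δ y = c • δ x := by
  have h1 := congrArg δ.liftKaehlerDifferential h
  rwa [map_smul, Derivation.liftKaehlerDifferential_comp_D,
    Derivation.liftKaehlerDifferential_comp_D] at h1

/-- abstract: existence of `c`. -/
theorem exists_D_eq_smul {K F : Type*} [Field K] [Field F] [Algebra K F] [CharZero K]
    [FF.IsFF1 K F] {x : F} (hx : Transcendental K x) (y : F) :
    ∃ c : F, KaehlerDifferential.D K F y = c • KaehlerDifferential.D K F x := by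
  have h : KaehlerDifferential.D K F y ∈ Submodule.span F {KaehlerDifferential.D K F x} := by
    rw [FF.span_D_eq_top hx]
    trivial
  obtain ⟨c, hc⟩ := Submodule.mem_span_singleton.mp h
  exact ⟨c, hc.symm⟩

theorem JdL_eq (d : ℕ) [NeZero d] : JdL d = qExpand Qb d (jqModC Qb) := by
  change coeffMap (algebraMap ℚ Qb) (qExpand ℚ d jq) = _
  rw [coeffMap_qExpand]
  congr 1
  exact map_jqModC (K := ℚ) (algebraMap ℚ Qb)

theorem theta_qExpand' {k : Type*} [Field k] (ℓ : ℕ) [NeZero ℓ] (u : LaurentSeries k) :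
    theta (qExpand k ℓ u) = HahnSeries.C (ℓ : k) * qExpand k ℓ (theta u) := by
  ext n
  rw [HahnSeries.C_mul_eq_smul, HahnSeries.coeff_smul, coeff_theta, smul_eq_mul]
  by_cases hn : (ℓ : ℤ) ∣ n
  · obtain ⟨m, rfl⟩ := hn
    rw [qExpand_coeff_mul, qExpand_coeff_mul, coeff_theta]
    push_cast
    ring
  · rw [qExpand_coeff_of_not_dvd ℓ _ hn, qExpand_coeff_of_not_dvd ℓ _ hn, mul_zero, mul_zero]

/-- `(θ j)⁶ = R(j) Δ` over `ℚ̄`. -/
theorem theta_j_pow_six :
    theta (jqModC Qb) ^ 6 = RJ (jqModC Qb) * S28.DqC Qb := by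
  have h := congrArg (coeffMap (Int.castRingHom Qb)) theta_jZ_pow_six
  have hj : coeffMap (Int.castRingHom Qb) (jqModC ℤ) = jqModC Qb := map_jqModC (Int.castRingHom Qb)
  rw [map_pow, ← a0_theta_coeffMap, map_mul, map_mul, map_pow, map_pow, map_sub, hj,
    S28.coeffMap_DqC, map_ofNat] at h
  exact h

/-- `(θ j_d)⁶ = d⁶ R(j_d) Δ(Q^d)`. -/
theorem theta_JdL_pow_six (d : ℕ) [NeZero d] :
    theta (JdL d) ^ 6 = HahnSeries.C (d : Qb) ^ 6 * (RJ (JdL d) * qExpand Qb d (S28.DqC Qb)) := by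
  rw [JdL_eq, theta_qExpand', mul_pow, ← map_pow (qExpand Qb d), theta_j_pow_six, map_mul]
  congr 2
  unfold RJ
  rw [map_mul, map_pow, map_pow, map_sub, map_ofNat]

theorem transcendental_Jd (N d : ℕ) [NeZero d] (hd : d ∣ N) : Transcendental Qb (Jd N d hd) := by
  apply FF.transcendental_of_not_mem_range
  rintro ⟨a, ha⟩
  have h1 : ((Jd N d hd : FN N) : LaurentSeries Qb).coeff (-(d : ℤ)) = 1 := by
    show (JdL d).coeff (-(d : ℤ)) = 1
    have e : (-(d : ℤ)) = (d : ℤ) * (-1) := by ring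
    rw [JdL_eq, e, qExpand_coeff_mul]
    have := coeff_JJ_neg_one 1
    have h3 : ((JJ 1 : FN 1) : LaurentSeries Qb) = JdL 1 := rfl
    rw [h3, JdL_eq, qExpand_one_apply] at this
    exact this
  rw [← ha] at h1
  have h2 : ((algebraMap Qb (FN N) a : FN N) : LaurentSeries Qb)
      = algebraMap Qb (LaurentSeries Qb) a := rfl
  have hd0 : (-(d : ℤ)) ≠ 0 := by
    have := NeZero.ne d
    omega
  rw [h2, algebraMap_laurentSeries_eq_single, HahnSeries.coeff_single_of_ne hd0] at h1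
  exact zero_ne_one h1

set_option synthInstance.maxHeartbeats 400000 in
/-- **the identity** (shape of helper5's request). -/
theorem exists_D_eq (N d₁ d₂ : ℕ) [NeZero N] [NeZero d₁] [NeZero d₂] (h₁ : d₁ ∣ N) (h₂ : d₂ ∣ N) :
    ∃ c : FN N, KaehlerDifferential.D Qb (FN N) (Jd N d₂ h₂)
        = c • KaehlerDifferential.D Qb (FN N) (Jd N d₁ h₁) ∧
      dF N d₁ d₂ h₁ h₂ * RJ (Jd N d₂ h₂) * (d₂ : FN N) ^ 6
        = (c * (d₁ : FN N)) ^ 6 * RJ (Jd N d₁ h₁) := by
  obtain ⟨c, hc⟩ := exists_D_eq_smul (transcendental_Jd N d₁ h₁) (Jd N d₂ h₂)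
  refine ⟨c, hc, ?_⟩
  have h3 := deriv_eq_of_D_eq (thD N) hc
  rw [thD_apply, thD_apply, Algebra.smul_def] at h3
  have h4 : theta (JdL d₂) = (c : LaurentSeries Qb) * theta (JdL d₁) := h3
  have h5 := congrArg (· ^ 6) h4
  simp only [mul_pow] at h5
  rw [theta_JdL_pow_six, theta_JdL_pow_six] at h5
  have hA1 : qExpand Qb d₁ (S28.DqC Qb) ≠ 0 := by
    intro h0
    have h6 : qExpand Qb d₁ (S28.DqC Qb) * qExpand Qb d₁ (S28.DqInvC Qb) = 1 := by
      rw [← map_mul, S28.DqC_mul_DqInvC, map_one]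
    rw [h0, zero_mul] at h6
    exact zero_ne_one h6
  have hI : S28.DqInvC Qb ≠ 0 := by
    intro h0
    have h6 := S28.DqC_mul_DqInvC Qb
    rw [h0, mul_zero] at h6
    exact zero_ne_one h6
  have hdF : ((dF N d₁ d₂ h₁ h₂ : FN N) : LaurentSeries Qb) * qExpand Qb d₁ (S28.DqC Qb)
      = qExpand Qb d₂ (S28.DqC Qb) := by
    rw [dF_eq]
    have e : ((uF N d₂ h₂ * (uF N d₁ h₁)⁻¹ : FN N) : LaurentSeries Qb)
        = ((uF N d₂ h₂ : FN N) : LaurentSeries Qb) * ((uF N d₁ h₁ : FN N) : LaurentSeries Qb)⁻¹ := rfl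
    rw [e, coe_uF, coe_uF, coeffMap_uU_eq, coeffMap_uU_eq]
    field_simp
  apply Subtype.ext
  apply mul_right_cancel₀ hA1
  have e1 : ((dF N d₁ d₂ h₁ h₂ * RJ (Jd N d₂ h₂) * (d₂ : FN N) ^ 6 : FN N) : LaurentSeries Qb)
      = ((dF N d₁ d₂ h₁ h₂ : FN N) : LaurentSeries Qb) * RJ (JdL d₂) * (d₂ : LaurentSeries Qb) ^ 6 :=
    rfl
  have e2 : (((c * (d₁ : FN N)) ^ 6 * RJ (Jd N d₁ h₁) : FN N) : LaurentSeries Qb)
      = ((c : LaurentSeries Qb) * (d₁ : LaurentSeries Qb)) ^ 6 * RJ (JdL d₁) := rfl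
  have e3 : ∀ d : ℕ, HahnSeries.C (d : Qb) = (d : LaurentSeries Qb) := fun d => map_natCast _ d
  rw [e3, e3] at h5
  rw [e1, e2]
  calc ((dF N d₁ d₂ h₁ h₂ : FN N) : LaurentSeries Qb) * RJ (JdL d₂) * (d₂ : LaurentSeries Qb) ^ 6
        * qExpand Qb d₁ (S28.DqC Qb)
      = (d₂ : LaurentSeries Qb) ^ 6 * (RJ (JdL d₂)
          * (((dF N d₁ d₂ h₁ h₂ : FN N) : LaurentSeries Qb) * qExpand Qb d₁ (S28.DqC Qb))) := by ring
    _ = (d₂ : LaurentSeries Qb) ^ 6 * (RJ (JdL d₂) * qExpand Qb d₂ (S28.DqC Qb)) := by rw [hdF]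
    _ = _ := by rw [h5]; ring

end Fermat.Agent.CAR.XW
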