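import Fermat.Agent.CAR.TH1.Defs
import Fermat.Agent.GAL.KLC.X3.Lam
import Fermat.Agent.TOR.GB.W

/-!
# CAR / XW / Uq : `w_q (u_q) = q⁻¹² u_q⁻¹` for `u_q = Δ(Q^q)/Δ(Q)`   (analytic proof)

`q·γ₀τ = δ(τ/q)` for `γ₀ = [[u,v],[M,q]]`, `δ = [[qu,v],[M,1]]`, so
`u_q(γ₀τ) = q⁻¹² Δ(τ/q)/Δ(τ)`; compare with `TOR.GB.emb_gamB_eq`.
-/

set_option autoImplicit false

open UpperHalfPlane ModularForm Function ModularCurve
open scoped Manifold MatrixGroups

noncomputable section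

namespace Fermat.Agent.CAR.XW

open Fermat.Agent.S24 Fermat.Agent.S28 Fermat.Agent.GR.HeckeField Fermat.Agent.TOR.GB
  Fermat.Agent.GAL Fermat.Agent.GAL.KLC Fermat.Agent.CAR.TH1

local notation "Δ" => ModularForm.discriminant

/-- `u_d = Δ(Q^d)/Δ(Q)` as an element of `FN N`. -/
def uF (N d : ℕ) [NeZero N] (hd : d ∣ N) : FN N :=
  ⟨((uR Qb (uU d) : (LaurentSeries Qb)ˣ) : LaurentSeries Qb), uU_mem N d hd⟩

theorem coe_uF (N d : ℕ) [NeZero N] (hd : d ∣ N) :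
    ((uF N d hd : FN N) : LaurentSeries Qb)
      = coeffMap (Int.castRingHom Qb) ((uU d : (LaurentSeries ℤ)ˣ) : LaurentSeries ℤ) := rfl

theorem iota_coe_uF (N d : ℕ) [NeZero N] (hd : d ∣ N) :
    coeffMap iota ((uF N d hd : FN N) : LaurentSeries Qb)
      = coeffMap (Int.castRingHom ℂ) ((uU d : (LaurentSeries ℤ)ˣ) : LaurentSeries ℤ) := by
  have hcomp : iota.comp (Int.castRingHom Qb) = Int.castRingHom ℂ := RingHom.ext_int _ _
  rw [coe_uF, coeffMap_coeffMap, hcomp]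

theorem Psi_uF (N d : ℕ) [NeZero N] (hd : d ∣ N) : Psi N (uF N d hd) = udL N d := by
  apply LamL_injective N
  rw [LamL_Psi, kap_apply, LamL_udL N d hd, iota_coe_uF]

/-- `q·γ₀τ = δ(τ/q)`. -/
theorem scaleH_gam0 (M q : ℕ) [NeZero q] (u v : ℤ) (h : u * q - v * M = 1)
    (hδ : ((q : ℤ) * u) * 1 - v * (M : ℤ) = 1) (τ : ℍ) :
    scaleH q (gam0 M q u v h • τ) = mkSL ((q : ℤ) * u) v M 1 hδ •
      affH 1 q 0 one_pos (Nat.pos_of_ne_zero (NeZero.ne q)) τ := by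
  apply UpperHalfPlane.ext
  have hg : gam0 M q u v h = mkSL u v (M : ℤ) (q : ℤ) h := rfl
  rw [coe_scaleH, hg, coe_mkSL_smul, coe_mkSL_smul, coe_affH]
  have hq : (q : ℂ) ≠ 0 := by exact_mod_cast NeZero.ne q
  have h1 : ((M : ℤ) : ℂ) * τ + ((q : ℤ) : ℂ) ≠ 0 := by
    have := UpperHalfPlane.linear_ne_zero (cd := ![((M : ℤ) : ℝ), ((q : ℤ) : ℝ)]) τ (by
      intro h0
      have e1 := congrFun h0 1
      simp at e1
      exact NeZero.ne q e1)
    simpa using this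
  have h2 : ((M : ℤ) : ℂ) * ((((1 : ℕ) : ℂ) * τ + ((0 : ℤ) : ℂ)) / q) + ((1 : ℤ) : ℂ)
      = (((M : ℤ) : ℂ) * τ + ((q : ℤ) : ℂ)) / q := by
    push_cast
    field_simp
    ring
  rw [h2]
  push_cast at h1 ⊢
  field_simp
  ring

/-- `u_q(γ₀τ) = q⁻¹² Δ(τ/q)/Δ(τ)`. -/
theorem udFun_gam0 (M q : ℕ) [NeZero q] (u v : ℤ) (h : u * q - v * M = 1) (τ : ℍ) :
    udFun q (gam0 M q u v h • τ) = ((q : ℂ) ^ 12)⁻¹ *
      (Δ (affH 1 q 0 one_pos (Nat.pos_of_ne_zero (NeZero.ne q)) τ) / Δ τ) := by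
  have hδ : ((q : ℤ) * u) * 1 - v * (M : ℤ) = 1 := by linarith
  have hq : (q : ℂ) ≠ 0 := by exact_mod_cast NeZero.ne q
  rw [udFun, scaleH_gam0 M q u v h hδ, S24.discriminant_smul, S24.discriminant_smul]
  set w := affH 1 q 0 one_pos (Nat.pos_of_ne_zero (NeZero.ne q)) τ with hw
  have hden : denom (mkSL ((q : ℤ) * u) v M 1 hδ) w * q = denom (gam0 M q u v h) τ := by
    rw [ModularGroup.denom_apply, ModularGroup.denom_apply, hw, coe_affH]
    simp only [mkSL, gam0]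
    simp
    field_simp
  have hγ : denom (gam0 M q u v h) τ ≠ 0 := denom_ne_zero _ _
  have hσ : denom (mkSL ((q : ℤ) * u) v M 1 hδ) w ≠ 0 := denom_ne_zero _ _
  have hΔ : Δ τ ≠ 0 := ModularForm.discriminant_ne_zero τ
  rw [← hden, zpow_ofNat, zpow_ofNat]
  field_simp

theorem rootU_zero (e : ℕ) : rootU e 0 = 1 := by
  apply Units.ext
  simp

/-- the `Q`-expansion of `Δ(τ/q)` at level `M q`. -/
theorem Lam_discriminant_affH (M q : ℕ) [NeZero M] [NeZero q] (A : MerInf (M * q))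
    (hA : A.1 = fun τ => Δ (affH 1 q 0 one_pos (Nat.pos_of_ne_zero (NeZero.ne q)) τ)) :
    Lam (M * q) A = qExpand ℂ M (S28.DqC ℂ) := by
  have hΔ : IsNice (M * q : ℕ)
      (fun τ => Δ (affH 1 q 0 one_pos (Nat.pos_of_ne_zero (NeZero.ne q)) τ)) :=
    isNice_comp_affH 1 q 0 _ _ (N := M * q) (k := M) (by ring) isNice_discriminant_one
  rw [Lam_of_isNice _ A (by rw [hA]; exact hΔ), hA,
    ofPowerSeries_qExpansion_comp_affH 1 q 0 _ _ (N := M * q) (k := M) (by ring) (f := Δ)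
      isNice_discriminant_one,
    Lam_ofPowerSeries_discriminant, rootU_zero, twist_one']

/-- the expansion of `u_q ∘ γ₀`. -/
theorem emb_gamB_uF (M q : ℕ) [NeZero M] [NeZero q] (u v : ℤ) (h : u * q - v * M = 1) :
    emb M q (gamB M q u v h 0) (uF (M * q) q (Dvd.intro_left M rfl))
        * qExpand ℂ (M * q) (S28.DqC ℂ)
      = HahnSeries.C (((q : ℂ) ^ 12)⁻¹) * qExpand ℂ M (S28.DqC ℂ) := by
  have hd : q ∣ M * q := Dvd.intro_left M rfl
  rw [emb_apply, Psi_uF, udL_of_dvd (M * q) q hd, smul_algebraMap_LL, LamL_algebraMap]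
  have hΔa : IsNice (M * q : ℕ)
      (fun τ => Δ (affH 1 q 0 one_pos (Nat.pos_of_ne_zero (NeZero.ne q)) τ)) :=
    isNice_comp_affH 1 q 0 _ _ (N := M * q) (k := M) (by ring) isNice_discriminant_one
  obtain ⟨A, hA⟩ : ∃ A : MerInf (M * q),
      A.1 = fun τ => Δ (affH 1 q 0 one_pos (Nat.pos_of_ne_zero (NeZero.ne q)) τ) :=
    ⟨⟨_, hΔa.mem_MerInf⟩, rfl⟩
  obtain ⟨D, hD⟩ : ∃ D : MerInf (M * q), D.1 = Δ :=
    ⟨⟨_, (isNice_discriminant (M * q)).mem_MerInf⟩, rfl⟩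
  obtain ⟨U, hU⟩ : ∃ U : MerInf (M * q), U = Subalgebra.inclusion (MerMod_le_MerInf (M * q))
      (gamB M q u v h 0 • udM (M * q) q hd) := ⟨_, rfl⟩
  have hU1 : U.1 = fun τ => ((q : ℂ) ^ 12)⁻¹ *
      (Δ (affH 1 q 0 one_pos (Nat.pos_of_ne_zero (NeZero.ne q)) τ) / Δ τ) := by
    rw [hU]
    funext τ
    show udFun q ((gamB M q u v h 0)⁻¹ • τ) = _
    rw [gamB, inv_inv, zpow_zero, mul_one, udFun_gam0]
  have hLU : LamM (M * q) (gamB M q u v h 0 • udM (M * q) q hd) = Lam (M * q) U := by rw [hU]; rfl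
  have hcm : (fun _ : ℍ => ((q : ℂ) ^ 12)⁻¹) ∈ MerInf (M * q) :=
    (IsNice.const (M * q : ℕ) _).mem_MerInf
  have hmul : U * D = ⟨fun _ => ((q : ℂ) ^ 12)⁻¹, hcm⟩ * A := by
    apply Subtype.ext
    funext τ
    have e1 : (U * D).1 τ = U.1 τ * D.1 τ := rfl
    have e2 : ((⟨fun _ => ((q : ℂ) ^ 12)⁻¹, hcm⟩ : MerInf (M * q)) * A).1 τ
        = ((q : ℂ) ^ 12)⁻¹ * A.1 τ := rfl
    rw [e1, e2, hU1, hD, hA]
    have hΔ : Δ τ ≠ 0 := ModularForm.discriminant_ne_zero τ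
    field_simp
  rw [hLU, ← Lam_discriminant (M * q) D hD, ← map_mul, hmul, map_mul, Lam_const,
    Lam_discriminant_affH M q A hA]

/-- **`w_q (u_q) · u_q = q⁻¹²`.** -/
theorem wq_uF {M q : ℕ} [NeZero M] [NeZero q] (hq : q.Prime) (hqM : ¬ q ∣ M) :
    wq M q (uF (M * q) q (Dvd.intro_left M rfl)) * uF (M * q) q (Dvd.intro_left M rfl)
      = algebraMap Qb (FN (M * q)) (((q : Qb) ^ 12)⁻¹) := by
  have hcop : IsCoprime (q : ℤ) (M : ℤ) :=
    Nat.isCoprime_iff_coprime.mpr ((Nat.Prime.coprime_iff_not_dvd hq).mpr hqM)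
  obtain ⟨a, b, hab⟩ := hcop
  have h : a * q - (-b) * M = 1 := by linarith
  have h1 := emb_gamB_uF M q a (-b) h
  rw [emb_gamB_eq hq hqM, rootU_zero, twist_one'] at h1
  apply Subtype.ext
  apply coeffMap_iota_injective
  apply qExpand_injective (R := ℂ) M
  have e1 : ((algebraMap Qb (FN (M * q)) (((q : Qb) ^ 12)⁻¹) : FN (M * q)) : LaurentSeries Qb) =
      HahnSeries.single 0 (((q : Qb) ^ 12)⁻¹) := algebraMap_laurentSeries_eq_single Qb _
  have e2 : ((wq M q (uF (M * q) q (Dvd.intro_left M rfl)) * uF (M * q) q (Dvd.intro_left M rfl)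
      : FN (M * q)) : LaurentSeries Qb)
      = ((wq M q (uF (M * q) q (Dvd.intro_left M rfl)) : FN (M * q)) : LaurentSeries Qb)
        * ((uF (M * q) q (Dvd.intro_left M rfl) : FN (M * q)) : LaurentSeries Qb) := rfl
  rw [e1, e2, map_mul, map_mul, iota_coe_uF, Lam_coeffMap_uU, map_mul, qExpand_qExpand,
    ← mul_assoc, h1, mul_assoc, ← map_mul, S28.DqC_mul_DqInvC, map_one, mul_one, coeffMap_single,
    qExpand_single, mul_zero]
  simp [HahnSeries.C_apply]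

end Fermat.Agent.CAR.XW
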